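/-
Fermat/Agent/S33P/O2Unram95/Global.lean  (helper95, programme S33, brick O2, part 2: local ⇄ global)

All places of `ℚ̄` over `p` are `G_ℚ`-conjugate (`Plumb66.Places.exists_conj`), hence
`GaloisRepAdic.IsOrdinaryAt p` may be checked at the canonical place `padicPlace p`, i.e. on the image of
`G_p = Gal(ℚ̄_p/ℚ_p)` under `res = localGaloisToGlobal p`:

* `isOrdinaryAt_of_canonical` : ordinarity at `padicPlace p` (with `D_A`, `I_A`) ⇒ `ρ.IsOrdinaryAt p`;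
* `isOrdinaryAt_of_local`     : the same with `∀ g : G_p` / `∀ τ ∈ I_p` (local form);
* `exists_local_of_isOrdinaryAt` : the converse (for the residual hypothesis `hres`);
* `isOrdinaryAt_iff_local`;
* `forall_root_iff` : `(∀ μ ∈ μ_m(ℚ̄), res τ μ = μ ^ a) ↔ (∀ ζ ∈ μ_m(ℚ̄_p), τ ζ = ζ ^ a)`.
-/
import Mathlib
import Fermat.Prelude.Def_GaloisRep_LocalConditions
import Fermat.Agent.T1B.Plumb66.Places

set_option autoImplicit false
set_option linter.unusedSectionVars false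

noncomputable section

namespace Fermat.Agent.S33P.O2Unram95

open Fermat.Agent.TW.B5.Iface Fermat.Agent.T1.LocModel46
open Fermat.Agent.T1B.Plumb66.Inertia Fermat.Agent.T1B.Plumb66.Places

local notation "Qbar" => AlgebraicClosure ℚ
local notation "Γ" => (AlgebraicClosure ℚ ≃ₐ[ℚ] AlgebraicClosure ℚ)

variable (p : ℕ) [hp : Fact p.Prime]

section Ordinary

variable {A : Type} [CommRing A] [IsLocalRing A] (ρ : GaloisRepAdic A)

/-- the linear automorphism `ρ(γ)`. -/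
def rhoEquiv (γ : Γ) : ρ.V ≃ₗ[A] ρ.V :=
  LinearEquiv.ofLinear (ρ.ρ γ) (ρ.ρ γ⁻¹)
    (by rw [← Module.End.mul_eq_comp, ← map_mul, mul_inv_cancel, map_one]; rfl)
    (by rw [← Module.End.mul_eq_comp, ← map_mul, inv_mul_cancel, map_one]; rfl)

@[simp] theorem rhoEquiv_apply (γ : Γ) (v : ρ.V) : rhoEquiv ρ γ v = ρ.ρ γ v := rfl

theorem rho_mul_apply (σ τ : Γ) (v : ρ.V) : ρ.ρ (σ * τ) v = ρ.ρ σ (ρ.ρ τ v) := by
  rw [map_mul]; rfl

theorem rho_inv_apply_self (γ : Γ) (v : ρ.V) : ρ.ρ γ⁻¹ (ρ.ρ γ v) = v := by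
  rw [← rho_mul_apply, inv_mul_cancel, map_one]; rfl

theorem rho_apply_inv_self (γ : Γ) (v : ρ.V) : ρ.ρ γ (ρ.ρ γ⁻¹ v) = v := by
  rw [← rho_mul_apply, mul_inv_cancel, map_one]; rfl

/-- **Ordinarity may be checked at the canonical place.** -/
theorem isOrdinaryAt_of_canonical
    (h : ∃ L : Submodule A ρ.V,
      (∃ b : Module.Basis (Fin 2) A ρ.V, L = A ∙ b 0) ∧
      (∀ σ ∈ DA p, ∀ v ∈ L, ρ.ρ σ v ∈ L) ∧
      (∀ σ ∈ IA p, ∀ v : ρ.V, ρ.ρ σ v - v ∈ L)) :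
    ρ.IsOrdinaryAt p := by
  obtain ⟨L, ⟨b, hb⟩, hD, hI⟩ := h
  intro P hP
  obtain ⟨γ, -, hIP, hDP⟩ := exists_conj p P hP
  refine ⟨L.map (ρ.ρ γ), ⟨b.map (rhoEquiv ρ γ), ?_⟩, ?_, ?_⟩
  · rw [hb, Submodule.map_span, Set.image_singleton, Module.Basis.map_apply, rhoEquiv_apply]
  · rintro σ hσ _ ⟨v, hv, rfl⟩
    refine ⟨ρ.ρ (γ⁻¹ * σ * γ) v, hD _ ((hDP σ).1 hσ) v hv, ?_⟩
    rw [← rho_mul_apply, ← rho_mul_apply]
    congr 2
    group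
  · intro σ hσ v
    refine ⟨ρ.ρ (γ⁻¹ * σ * γ) (ρ.ρ γ⁻¹ v) - ρ.ρ γ⁻¹ v, hI _ ((hIP σ).1 hσ) _, ?_⟩
    rw [map_sub, rho_apply_inv_self, ← rho_mul_apply, ← rho_mul_apply]
    congr 3
    group

/-- **Ordinarity, local form**: a rank-one direct summand stable under `G_p` with trivial inertia
action on the quotient. -/
theorem isOrdinaryAt_of_local
    (h : ∃ L : Submodule A ρ.V,
      (∃ b : Module.Basis (Fin 2) A ρ.V, L = A ∙ b 0) ∧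
      (∀ g : Gp p, ∀ v ∈ L, ρ.ρ (localGaloisToGlobal p g) v ∈ L) ∧
      (∀ τ ∈ Ip p, ∀ v : ρ.V, ρ.ρ (localGaloisToGlobal p τ) v - v ∈ L)) :
    ρ.IsOrdinaryAt p := by
  obtain ⟨L, hb, hD, hI⟩ := h
  refine isOrdinaryAt_of_canonical p ρ ⟨L, hb, ?_, ?_⟩
  · exact (forall_DA_iff p (P := fun σ => ∀ v ∈ L, ρ.ρ σ v ∈ L)).2 hD
  · exact (forall_IA_iff p (P := fun σ => ∀ v : ρ.V, ρ.ρ σ v - v ∈ L)).2
      (fun τ hτ => hI τ ((mem_Ip p).2 hτ))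

/-- the converse. -/
theorem exists_local_of_isOrdinaryAt (h : ρ.IsOrdinaryAt p) :
    ∃ L : Submodule A ρ.V,
      (∃ b : Module.Basis (Fin 2) A ρ.V, L = A ∙ b 0) ∧
      (∀ g : Gp p, ∀ v ∈ L, ρ.ρ (localGaloisToGlobal p g) v ∈ L) ∧
      (∀ τ ∈ Ip p, ∀ v : ρ.V, ρ.ρ (localGaloisToGlobal p τ) v - v ∈ L) := by
  obtain ⟨L, hb, hD, hI⟩ := h (padicPlace p) (liesOverPrime p)
  exact ⟨L, hb, fun g v hv => hD _ (res_mem_DA p g) v hv,
    fun τ hτ v => hI _ ((mem_Ip_iff_res p).1 hτ) v⟩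

theorem isOrdinaryAt_iff_local :
    ρ.IsOrdinaryAt p ↔ ∃ L : Submodule A ρ.V,
      (∃ b : Module.Basis (Fin 2) A ρ.V, L = A ∙ b 0) ∧
      (∀ g : Gp p, ∀ v ∈ L, ρ.ρ (localGaloisToGlobal p g) v ∈ L) ∧
      (∀ τ ∈ Ip p, ∀ v : ρ.V, ρ.ρ (localGaloisToGlobal p τ) v - v ∈ L) :=
  ⟨exists_local_of_isOrdinaryAt p ρ, isOrdinaryAt_of_local p ρ⟩

end Ordinary

/-! ### Roots of unity -/

/-- the action on `m`-th roots of unity, global ⇄ local. -/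
theorem forall_root_iff (τ : Gp p) {m : ℕ} (hm : m ≠ 0) (a : ℕ) :
    (∀ μ : Qbar, μ ^ m = 1 → localGaloisToGlobal p τ μ = μ ^ a) ↔
      ∀ ζ : Kbar p, ζ ^ m = 1 → τ ζ = ζ ^ a := by
  constructor
  · intro h ζ hζ
    obtain ⟨z, hz, rfl⟩ := exists_root_preimage p hm hζ
    rw [← iota_res, h z hz, map_pow]
  · intro h μ hμ
    apply iota_injective p
    rw [iota_res, map_pow]
    exact h _ (by rw [← map_pow, hμ, map_one])

end Fermat.Agent.S33P.O2Unram95
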