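/-
Fermat/Agent/S33P/O2Unram95/Sigma0.lean  (helper95, programme S33, brick A2'(d)+(e))

For `ρ : GaloisRepAdic A` (`A` local, residue field `k`), with residual representation
`ρ̄ = ofResidualGaloisRep ρ.residual` on `k ⊗[A] V` ORDINARY at `p` (`hres` of S33) and determinant
cyclotomic modulo `𝔪` (`DetCycloModMax`):

* (d1) `exists_isUnit_det_sub_one` : `p ≠ 2 → ∃ σ0 ∈ I_p, IsUnit (det ρ(σ0) - 1)`;
* (d2) `trace_sub_mem`             : `∀ σ ∈ I_p, tr ρ(σ) - (det ρ(σ) + 1) ∈ 𝔪`;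
* (e)  `exists_sub_sub_mem`        : for `σ0 ∈ I_p` with `det ρ(σ0) - 1` a unit,
        `∀ σ ∈ I_p, ∀ v, ∃ w, (ρ(σ) v - v) - (ρ(σ0) w - w) ∈ 𝔪 V`;
* `exists_sigma0` : the package, in the `ε`-form of ruling R1 (report 1278).

Here `I_p = IA p = (padicPlace p).inertiaSubgroupIn ℚ`.
-/
import Mathlib
import Fermat.Agent.S33P.O2Unram95.Global
import Fermat.Agent.T1B.Plumb66.Cyclo

set_option autoImplicit false
set_option linter.unusedSectionVars false

noncomputable section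

namespace Fermat.Agent.S33P.O2Unram95

open Fermat.Agent.TW.B5.Iface Fermat.Agent.T1.LocModel46
open Fermat.Agent.T1B.Plumb66.Inertia Fermat.Agent.T1B.Plumb66.Places
open Fermat.Agent.T1B.Plumb66.Cyclo
open scoped TensorProduct

local notation "Qbar" => AlgebraicClosure ℚ
local notation "Γ" => (AlgebraicClosure ℚ ≃ₐ[ℚ] AlgebraicClosure ℚ)

/-! ### Toolbox -/

section Toolbox

variable {A : Type} [CommRing A] [IsLocalRing A] {V : Type} [AddCommGroup V] [Module A V]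

/-- `1 ⊗ x = 0` in `k ⊗ V` iff `x ∈ 𝔪 V`. -/
theorem one_tmul_eq_zero_iff (x : V) :
    ((1 : IsLocalRing.ResidueField A) ⊗ₜ[A] x : IsLocalRing.ResidueField A ⊗[A] V) = 0 ↔
      x ∈ IsLocalRing.maximalIdeal A • (⊤ : Submodule A V) := by
  have h := TensorProduct.quotTensorEquivQuotSMul_mk_one_tmul (M := V)
    (IsLocalRing.maximalIdeal A) x
  rw [← Submodule.Quotient.mk_eq_zero, ← h]
  exact (map_eq_zero_iff _ (TensorProduct.quotTensorEquivQuotSMul V
    (IsLocalRing.maximalIdeal A)).injective).symm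

/-- every element of `k ⊗ V` is `1 ⊗ v`. -/
theorem exists_one_tmul (y : IsLocalRing.ResidueField A ⊗[A] V) :
    ∃ v : V, y = (1 : IsLocalRing.ResidueField A) ⊗ₜ[A] v := by
  obtain ⟨v, hv⟩ := TensorProduct.mk_surjective A V (IsLocalRing.ResidueField A)
    (by rw [IsLocalRing.ResidueField.algebraMap_eq]; exact IsLocalRing.residue_surjective) y
  exact ⟨v, hv.symm⟩

/-- upper-triangular `2 × 2`: `f b₀ ∈ ⟨b₀⟩`, `f b₁ - b₁ ∈ ⟨b₀⟩` ⇒ `tr f = det f + 1` and
`f b₀ = det f • b₀`. -/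
theorem trace_eq_det_add_one {K W : Type*} [CommRing K] [AddCommGroup W] [Module K W]
    (b : Module.Basis (Fin 2) K W) (f : Module.End K W)
    (h0 : f (b 0) ∈ K ∙ b 0) (h1 : f (b 1) - b 1 ∈ K ∙ b 0) :
    LinearMap.trace K W f = LinearMap.det f + 1 ∧ f (b 0) = LinearMap.det f • b 0 := by
  obtain ⟨ψ, hψ⟩ := Submodule.mem_span_singleton.1 h0
  obtain ⟨c, hc⟩ := Submodule.mem_span_singleton.1 h1
  have hc' : f (b 1) = c • b 0 + b 1 := by rw [hc]; abel
  have h00 : LinearMap.toMatrix b b f 0 0 = ψ := by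
    rw [LinearMap.toMatrix_apply, ← hψ, map_smul, Module.Basis.repr_self]; simp
  have h10 : LinearMap.toMatrix b b f 1 0 = 0 := by
    rw [LinearMap.toMatrix_apply, ← hψ, map_smul, Module.Basis.repr_self]; simp
  have h01 : LinearMap.toMatrix b b f 0 1 = c := by
    rw [LinearMap.toMatrix_apply, hc', map_add, map_smul, Module.Basis.repr_self,
      Module.Basis.repr_self]; simp
  have h11 : LinearMap.toMatrix b b f 1 1 = 1 := by
    rw [LinearMap.toMatrix_apply, hc', map_add, map_smul, Module.Basis.repr_self,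
      Module.Basis.repr_self]; simp
  have hdet : LinearMap.det f = ψ := by
    rw [← LinearMap.det_toMatrix b, Matrix.det_fin_two, h00, h10, h01, h11]; ring
  refine ⟨?_, by rw [hdet, hψ]⟩
  rw [LinearMap.trace_eq_matrix_trace K b, Matrix.trace_fin_two, h00, h11, hdet]

theorem natCast_mem_maximalIdeal_of_isLocalHom {𝒪 T : Type*} [CommRing 𝒪] [CommRing T]
    [IsLocalRing 𝒪] [IsLocalRing T] [Algebra 𝒪 T] [IsLocalHom (algebraMap 𝒪 T)] {p : ℕ}
    (h : (p : 𝒪) ∈ IsLocalRing.maximalIdeal 𝒪) : (p : T) ∈ IsLocalRing.maximalIdeal T := by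
  rw [IsLocalRing.mem_maximalIdeal, mem_nonunits_iff] at h ⊢
  intro hu
  apply h
  rw [← map_natCast (algebraMap 𝒪 T)] at hu
  exact isUnit_of_map_unit (algebraMap 𝒪 T) _ hu

end Toolbox

variable (p : ℕ) [hp : Fact p.Prime] {A : Type} [CommRing A] [IsLocalRing A] (ρ : GaloisRepAdic A)

/-- the determinant is cyclotomic modulo `𝔪` (the `n = 1` part of `DetIsCyclotomic`, modulo `𝔪`). -/
def DetCycloModMax : Prop :=
  ∀ (σ : Γ) (a : ℕ), (∀ μ : Qbar, μ ^ p = 1 → σ μ = μ ^ a) →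
    LinearMap.det (ρ.ρ σ) - (a : A) ∈ IsLocalRing.maximalIdeal A

theorem detCycloModMax_of_detIsCyclotomic (h : ρ.DetIsCyclotomic p) : DetCycloModMax p ρ := by
  intro σ a ha
  have h1 := h.2 1 σ a (by simpa using ha)
  rw [pow_one] at h1
  exact (Ideal.span_singleton_le_iff_mem _ |>.2 h.1) h1

theorem detCycloModMax_of_eps (hpA : (p : A) ∈ IsLocalRing.maximalIdeal A) (ε : Γ → A)
    (hdet : ∀ g, LinearMap.det (ρ.ρ g) = ε g)
    (hε : ∀ (n : ℕ) (g : Γ) (a : ℕ), (∀ μ : Qbar, μ ^ p ^ n = 1 → g μ = μ ^ a) →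
      ε g - (a : A) ∈ Ideal.span {((p ^ n : ℕ) : A)}) : DetCycloModMax p ρ := by
  intro σ a ha
  have h1 := hε 1 σ a (by simpa using ha)
  rw [pow_one] at h1
  rw [hdet]
  exact (Ideal.span_singleton_le_iff_mem _ |>.2 hpA) h1

/-- (d1) an inertial element with `det - 1` a unit. -/
theorem exists_isUnit_det_sub_one (hp2 : p ≠ 2) (hpA : (p : A) ∈ IsLocalRing.maximalIdeal A)
    (hc : DetCycloModMax p ρ) : ∃ σ0 ∈ IA p, IsUnit (LinearMap.det (ρ.ρ σ0) - 1) := by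
  obtain ⟨τ0, hτ0, hne⟩ := exists_inertial_chi_ne_one p hp2
  refine ⟨localGaloisToGlobal p τ0, (isInertial_iff p τ0).1 hτ0, ?_⟩
  have h1 := hc (localGaloisToGlobal p τ0) (chiNat p τ0)
    (fun μ hμ => apply_root_global p _ hμ)
  -- `a - 1` is a unit of `A`
  have hcop : IsCoprime ((chiNat p τ0 : ℤ) - 1) (p : ℤ) := by
    rw [isCoprime_comm]
    refine (Nat.prime_iff_prime_int.1 hp.out).coprime_iff_not_dvd.2 (fun hdvd => hne ?_)
    have := (Int.modEq_iff_dvd.2 hdvd).symm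
    exact_mod_cast this
  obtain ⟨u, v, huv⟩ := hcop
  have hunit : IsUnit ((chiNat p τ0 : A) - 1) := by
    have h2 : (u : A) * ((chiNat p τ0 : A) - 1) = 1 - (v : A) * (p : A) := by
      have := congrArg (Int.cast : ℤ → A) huv
      push_cast at this
      linear_combination this
    have h3 : IsUnit (1 - (v : A) * (p : A)) := by
      by_contra hnu
      have hm : 1 - (v : A) * (p : A) ∈ IsLocalRing.maximalIdeal A :=
        (IsLocalRing.mem_maximalIdeal _).2 hnu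
      have : (1 : A) ∈ IsLocalRing.maximalIdeal A := by
        have := Ideal.add_mem _ hm (Ideal.mul_mem_left _ (v : A) hpA)
        simp at this
      exact (Ideal.ne_top_iff_one _).1 (IsLocalRing.maximalIdeal.isMaximal A).ne_top this
    rw [← h2] at h3
    exact isUnit_of_mul_isUnit_right h3
  by_contra hnu
  have hm : LinearMap.det (ρ.ρ (localGaloisToGlobal p τ0)) - 1 ∈ IsLocalRing.maximalIdeal A :=
    (IsLocalRing.mem_maximalIdeal _).2 hnu
  have : (chiNat p τ0 : A) - 1 ∈ IsLocalRing.maximalIdeal A := by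
    have := Ideal.sub_mem _ hm h1
    simpa using this
  exact (IsLocalRing.mem_maximalIdeal _).1 this hunit

/-! ### The residual representation -/

/-- the reduction map `V → V̄ = k ⊗[A] V`, `v ↦ 1 ⊗ v`. -/
def red : ρ.V →+ (GaloisRepAdic.ofResidualGaloisRep ρ.residual).V :=
  (TensorProduct.mk A (IsLocalRing.ResidueField A) ρ.V 1).toAddMonoidHom

/-- `ρ̄(σ) (red v) = red (ρ(σ) v)`. -/
theorem residual_rho_red (σ : Γ) (v : ρ.V) :
    (GaloisRepAdic.ofResidualGaloisRep ρ.residual).ρ σ (red ρ v) = red ρ (ρ.ρ σ v) :=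
  rfl

theorem red_surjective : Function.Surjective (red ρ) := fun y => by
  obtain ⟨v, hv⟩ := exists_one_tmul (V := ρ.V) y
  exact ⟨v, hv.symm⟩

theorem red_eq_zero_iff (v : ρ.V) :
    red ρ v = 0 ↔ v ∈ IsLocalRing.maximalIdeal A • (⊤ : Submodule A ρ.V) :=
  one_tmul_eq_zero_iff v

theorem residual_trace (σ : Γ) :
    LinearMap.trace (IsLocalRing.ResidueField A) (GaloisRepAdic.ofResidualGaloisRep ρ.residual).V
      ((GaloisRepAdic.ofResidualGaloisRep ρ.residual).ρ σ) =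
      algebraMap A (IsLocalRing.ResidueField A) (LinearMap.trace A ρ.V (ρ.ρ σ)) :=
  LinearMap.trace_baseChange (ρ.ρ σ) (IsLocalRing.ResidueField A)

theorem residual_det (σ : Γ) :
    LinearMap.det ((GaloisRepAdic.ofResidualGaloisRep ρ.residual).ρ σ) =
      algebraMap A (IsLocalRing.ResidueField A) (LinearMap.det (ρ.ρ σ)) :=
  LinearMap.det_baseChange (A := IsLocalRing.ResidueField A) (ρ.ρ σ)

/-- the shape of `ρ̄|_{I_p}` given by `hres`. -/
theorem exists_residual_line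
    (hres : (GaloisRepAdic.ofResidualGaloisRep ρ.residual).IsOrdinaryAt p) :
    ∃ b : Module.Basis (Fin 2) (IsLocalRing.ResidueField A)
        (GaloisRepAdic.ofResidualGaloisRep ρ.residual).V,
      (∀ σ ∈ IA p, (GaloisRepAdic.ofResidualGaloisRep ρ.residual).ρ σ (b 0) ∈
        (IsLocalRing.ResidueField A) ∙ b 0) ∧
      (∀ σ ∈ IA p, ∀ v, (GaloisRepAdic.ofResidualGaloisRep ρ.residual).ρ σ v - v ∈
        (IsLocalRing.ResidueField A) ∙ b 0) := by
  obtain ⟨L, ⟨b, hb⟩, hD, hI⟩ := hres (padicPlace p) (liesOverPrime p)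
  refine ⟨b, fun σ hσ => ?_, fun σ hσ v => ?_⟩
  · rw [← hb]
    exact hD σ (IA_le_DA p hσ) _ (by rw [hb]; exact Submodule.mem_span_singleton_self _)
  · rw [← hb]
    exact hI σ hσ v

/-- (d2) `tr ρ(σ) ≡ det ρ(σ) + 1 mod 𝔪` for every `σ ∈ I_p`. -/
theorem trace_sub_mem (hres : (GaloisRepAdic.ofResidualGaloisRep ρ.residual).IsOrdinaryAt p)
    {σ : Γ} (hσ : σ ∈ IA p) :
    LinearMap.trace A ρ.V (ρ.ρ σ) - (LinearMap.det (ρ.ρ σ) + 1) ∈ IsLocalRing.maximalIdeal A := by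
  obtain ⟨b, h0, h1⟩ := exists_residual_line p ρ hres
  have h := (trace_eq_det_add_one b _ (h0 σ hσ) (h1 σ hσ _)).1
  rw [residual_trace, residual_det] at h
  rw [← IsLocalRing.residue_eq_zero_iff, ← IsLocalRing.ResidueField.algebraMap_eq, map_sub,
    map_add, map_one, h, sub_self]

/-- (e) for `σ0 ∈ I_p` with `det ρ(σ0) - 1` a unit: `(ρ(σ) - 1) V ⊆ (ρ(σ0) - 1) V + 𝔪 V` for every
`σ ∈ I_p`. -/
theorem exists_sub_sub_mem (hres : (GaloisRepAdic.ofResidualGaloisRep ρ.residual).IsOrdinaryAt p)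
    {σ0 : Γ} (h0 : σ0 ∈ IA p) (hu : IsUnit (LinearMap.det (ρ.ρ σ0) - 1))
    {σ : Γ} (hσ : σ ∈ IA p) (v : ρ.V) :
    ∃ w : ρ.V, (ρ.ρ σ v - v) - (ρ.ρ σ0 w - w) ∈
      IsLocalRing.maximalIdeal A • (⊤ : Submodule A ρ.V) := by
  obtain ⟨b, hb0, hb1⟩ := exists_residual_line p ρ hres
  have hψ := (trace_eq_det_add_one b _ (hb0 σ0 h0) (hb1 σ0 h0 _)).2
  rw [residual_det] at hψ
  set ψ : IsLocalRing.ResidueField A :=
    algebraMap A (IsLocalRing.ResidueField A) (LinearMap.det (ρ.ρ σ0)) with hψdef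
  have hψ1 : ψ - 1 ≠ 0 := by
    have := (hu.map (algebraMap A (IsLocalRing.ResidueField A))).ne_zero
    rwa [map_sub, map_one] at this
  obtain ⟨c, hc⟩ := Submodule.mem_span_singleton.1 (hb1 σ hσ (red ρ v))
  obtain ⟨w, hw⟩ := red_surjective ρ ((c * (ψ - 1)⁻¹) • b 0)
  refine ⟨w, (red_eq_zero_iff ρ _).1 ?_⟩
  rw [map_sub, map_sub, map_sub, ← residual_rho_red, ← residual_rho_red, ← hc, hw, map_smul, hψ,
    smul_smul, ← sub_smul, ← sub_smul]
  have : c - (c * (ψ - 1)⁻¹ * ψ - c * (ψ - 1)⁻¹) = 0 := by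
    field_simp
    ring
  rw [this, zero_smul]

/-- **A2'(d)+(e), packaged** (the `ε`-form of ruling R1). -/
theorem exists_sigma0 (hp2 : p ≠ 2) (hpA : (p : A) ∈ IsLocalRing.maximalIdeal A) (ε : Γ → A)
    (hdet : ∀ g, LinearMap.det (ρ.ρ g) = ε g) (hc : DetCycloModMax p ρ)
    (hres : (GaloisRepAdic.ofResidualGaloisRep ρ.residual).IsOrdinaryAt p) :
    ∃ σ0 ∈ IA p, IsUnit (ε σ0 - 1) ∧
      LinearMap.trace A ρ.V (ρ.ρ σ0) - (ε σ0 + 1) ∈ IsLocalRing.maximalIdeal A ∧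
      ∀ σ ∈ IA p, ∀ v : ρ.V, ∃ w : ρ.V, (ρ.ρ σ v - v) - (ρ.ρ σ0 w - w) ∈
        IsLocalRing.maximalIdeal A • (⊤ : Submodule A ρ.V) := by
  obtain ⟨σ0, h0, hu⟩ := exists_isUnit_det_sub_one p ρ hp2 hpA hc
  refine ⟨σ0, h0, ?_, ?_, fun σ hσ v => exists_sub_sub_mem p ρ hres h0 hu hσ v⟩
  · rw [← hdet]; exact hu
  · rw [← hdet]; exact trace_sub_mem p ρ hres h0

end Fermat.Agent.S33P.O2Unram95
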