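/-
Fermat/Agent/S33P/O2Unram95/Base.lean  (helper95, programme S33, brick O2 "unramified base in the local model")

Local model of `TW/B5/Iface`: `Ω = Kbar p = PadicAlgCl p` with its norm, `G_p = Gp p`,
inertia `I_p = Plumb66.Inertia.Ip p = {τ | IsInertial p τ}`.

* `Kur p : IntermediateField ℚ_[p] (Kbar p)` : the inertia-fixed field (`mem_Kur_iff`, `mem_Kur_iff_Ip`),
  stable under `G_p` (`gal_mem_Kur`);
* `norm_eq_zpow_of_mem_Kur` : `x ∈ Kur p`, `x ≠ 0` ⇒ `‖x‖ ∈ p^ℤ`  (TW's `(LG-U1)`);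
* `Wur p : Subring (Kbar p)` : `W' = {x | ‖x‖ ≤ 1 ∧ ∀ τ ∈ I_p, τ x = x}` (`mem_Wur_iff`);
* `isUnit_Wur_iff` : units of `W'` = elements of norm `1`;  `exists_pow_mul_unit` : `x = p^m · u`;
* **`isDiscreteValuationRing_Wur`**, **`maximalIdeal_Wur`** : `W'` is a DVR with maximal ideal `(p)`;
  `mem_maximalIdeal_Wur_iff` : `x ∈ 𝔪_{W'} ↔ ‖x‖ < 1`;
* `P = padicIntegers p` (Prelude): `Wur_le_padicIntegers`, `mem_Wur_iff_padicIntegers`
  (`W' = P ∩ Kur`), `norm_le_one_of_isIntegral_Wur` (elements integral over `W'` lie in `P`),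
  `inertia_sub_lt_one` (`I_p` acts trivially on `P/𝔪_P`), `gal_mem_padicIntegers_iff`;
* `exists_pow_mul_mem_Wur` : `Kur = W'[1/p]`.
-/
import Mathlib
import Fermat.Agent.TW.CE46.Toolkit
import Fermat.Agent.T1B.Plumb66.Inertia

set_option autoImplicit false
set_option linter.unusedSectionVars false

noncomputable section

namespace Fermat.Agent.S33P.O2Unram95

open Fermat.Agent.TW.B5 Fermat.Agent.TW.B5.Iface
open Fermat.Agent.T1B.Plumb66.Inertia Fermat.Agent.T1.LocModel46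

variable (p : ℕ) [hp : Fact p.Prime]

/-! ### The inertia-fixed field -/

/-- **The inertia-fixed field** `K' = Ω^{I_p}` (the maximal unramified extension of `ℚ_p` in `Ω`). -/
def Kur : IntermediateField ℚ_[p] (Kbar p) where
  carrier := {x | ∀ τ : Gp p, IsInertial p τ → τ x = x}
  mul_mem' := fun {a b} ha hb τ hτ => by rw [map_mul, ha τ hτ, hb τ hτ]
  one_mem' := fun τ _ => map_one τ
  add_mem' := fun {a b} ha hb τ hτ => by rw [map_add, ha τ hτ, hb τ hτ]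
  zero_mem' := fun τ _ => map_zero τ
  algebraMap_mem' := fun c τ _ => τ.commutes c
  inv_mem' := fun x hx τ hτ => by rw [map_inv₀, hx τ hτ]

variable {p}

theorem mem_Kur_iff {x : Kbar p} : x ∈ Kur p ↔ ∀ τ : Gp p, IsInertial p τ → τ x = x := Iff.rfl

theorem mem_Kur_iff_Ip {x : Kbar p} : x ∈ Kur p ↔ ∀ τ ∈ Ip p, τ x = x := by
  rw [mem_Kur_iff]
  exact ⟨fun h τ hτ => h τ ((mem_Ip p).1 hτ), fun h τ hτ => h τ ((mem_Ip p).2 hτ)⟩

/-- `K'` is stable under `G_p` (`I_p` is normal). -/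
theorem gal_mem_Kur (g : Gp p) {x : Kbar p} (hx : x ∈ Kur p) : g x ∈ Kur p := by
  rw [mem_Kur_iff_Ip] at hx ⊢
  intro τ hτ
  have h1 : g⁻¹ * τ * g ∈ Ip p := by
    have := (normal_Ip p).conj_mem τ hτ g⁻¹
    rwa [inv_inv] at this
  have h2 := hx _ h1
  have h3 : (g⁻¹ * τ * g) x = g⁻¹ (τ (g x)) := rfl
  rw [h3] at h2
  have h4 := congrArg g h2
  rw [← AlgEquiv.mul_apply, mul_inv_cancel, AlgEquiv.one_apply] at h4
  exact h4

/-- **Inertia-fixed elements are unramified**: `‖x‖ ∈ p^ℤ`. -/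
theorem norm_eq_zpow_of_mem_Kur {x : Kbar p} (hx : x ∈ Kur p) (h0 : x ≠ 0) :
    ∃ n : ℤ, ‖x‖ = (p : ℝ) ^ n := by
  obtain ⟨K₁, -, hunr, hxK⟩ := Fermat.Agent.TW.CE46.Toolkit.inertiaFixedUnram p x hx
  exact hunr x hxK h0

theorem one_lt_p : (1 : ℝ) < p := by exact_mod_cast hp.out.one_lt

theorem p_pos : (0 : ℝ) < p := by exact_mod_cast hp.out.pos

theorem norm_p_pow (m : ℕ) : ‖(p : Kbar p) ^ m‖ = ((p : ℝ)⁻¹) ^ m := by
  rw [norm_pow, LG83U.norm_p]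

theorem p_ne_zero' : (p : Kbar p) ≠ 0 := by
  intro h
  have := LG83U.norm_p p
  rw [h, norm_zero] at this
  exact (inv_pos.mpr (p_pos (p := p))).ne this

/-- an inertia-fixed integral element has norm `p^{-m}`, `m ∈ ℕ`. -/
theorem norm_eq_pow_of_mem_Kur {x : Kbar p} (hx : x ∈ Kur p) (h0 : x ≠ 0) (h1 : ‖x‖ ≤ 1) :
    ∃ m : ℕ, ‖x‖ = ((p : ℝ)⁻¹) ^ m := by
  obtain ⟨n, hn⟩ := norm_eq_zpow_of_mem_Kur hx h0
  have hn0 : n ≤ 0 := by
    by_contra hcon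
    push Not at hcon
    have : (1 : ℝ) < (p : ℝ) ^ n := one_lt_zpow₀ (one_lt_p (p := p)) hcon
    rw [← hn] at this
    exact absurd h1 (not_le.mpr this)
  refine ⟨(-n).toNat, ?_⟩
  rw [hn, inv_pow, ← zpow_natCast, Int.toNat_of_nonneg (by omega), ← zpow_neg, neg_neg]

variable (p)

/-! ### The ring `W'` -/

/-- **`W'`**: the integers of the inertia-fixed field. -/
def Wur : Subring (Kbar p) := intSubring p (Kur p)

variable {p}

theorem mem_Wur_iff {x : Kbar p} : x ∈ Wur p ↔ x ∈ Kur p ∧ ‖x‖ ≤ 1 := Iff.rfl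

theorem mem_Wur_iff' {x : Kbar p} :
    x ∈ Wur p ↔ ‖x‖ ≤ 1 ∧ ∀ τ ∈ Ip p, τ x = x := by
  rw [mem_Wur_iff, mem_Kur_iff_Ip, and_comm]

theorem natCast_mem_Wur (n : ℕ) : (n : Kbar p) ∈ Wur p := natCast_mem _ n

theorem p_mem_Wur : (p : Kbar p) ∈ Wur p := natCast_mem_Wur p

/-- `W'` is stable under `G_p`. -/
theorem gal_mem_Wur (g : Gp p) {x : Kbar p} (hx : x ∈ Wur p) : g x ∈ Wur p :=
  ⟨gal_mem_Kur g hx.1, by rw [norm_gal]; exact hx.2⟩

/-- inertia fixes `W'` pointwise. -/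
theorem inertia_fixes_Wur {τ : Gp p} (hτ : τ ∈ Ip p) {x : Kbar p} (hx : x ∈ Wur p) : τ x = x :=
  (mem_Kur_iff_Ip.1 hx.1) τ hτ

theorem norm_le_one_Wur (x : Wur p) : ‖(x : Kbar p)‖ ≤ 1 := x.2.2

/-- units of `W'` are the elements of norm `1`. -/
theorem isUnit_Wur_iff (x : Wur p) : IsUnit x ↔ ‖(x : Kbar p)‖ = 1 := by
  constructor
  · rintro ⟨u, rfl⟩
    have h1 := norm_le_one_Wur (p := p) (u : Wur p)
    have h2 := norm_le_one_Wur (p := p) ((u⁻¹ : (Wur p)ˣ) : Wur p)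
    have h3 : ((u : Wur p) : Kbar p) * (((u⁻¹ : (Wur p)ˣ) : Wur p) : Kbar p) = 1 := by
      rw [← Subring.coe_mul, Units.mul_inv, Subring.coe_one]
    have h4 := congrArg norm h3
    rw [norm_mul, norm_one] at h4
    by_contra hne
    have hlt : ‖((u : Wur p) : Kbar p)‖ < 1 := lt_of_le_of_ne h1 hne
    have : ‖((u : Wur p) : Kbar p)‖ * ‖(((u⁻¹ : (Wur p)ˣ) : Wur p) : Kbar p)‖ < 1 :=
      mul_lt_one_of_nonneg_of_lt_one_left (norm_nonneg _) hlt h2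
    rw [h4] at this
    exact lt_irrefl _ this
  · intro h
    have h0 : (x : Kbar p) ≠ 0 := by
      intro h0
      rw [h0, norm_zero] at h
      exact zero_ne_one h
    have hinv : (x : Kbar p)⁻¹ ∈ Wur p :=
      ⟨(Kur p).inv_mem x.2.1, by rw [norm_inv, h, inv_one]⟩
    refine ⟨⟨x, ⟨_, hinv⟩, ?_, ?_⟩, rfl⟩
    · exact Subtype.ext (mul_inv_cancel₀ h0)
    · exact Subtype.ext (inv_mul_cancel₀ h0)

/-- **`x = p^m · u`** in `W'`. -/
theorem exists_pow_mul_unit {x : Wur p} (hx : x ≠ 0) :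
    ∃ (m : ℕ) (u : (Wur p)ˣ), x = (p : Wur p) ^ m * u ∧ ‖(x : Kbar p)‖ = ((p : ℝ)⁻¹) ^ m := by
  have hx0 : (x : Kbar p) ≠ 0 := fun h => hx (Subtype.ext h)
  obtain ⟨m, hm⟩ := norm_eq_pow_of_mem_Kur x.2.1 hx0 x.2.2
  have hpm : ((p : Kbar p) ^ m) ≠ 0 := pow_ne_zero m p_ne_zero'
  have hu : (x : Kbar p) / (p : Kbar p) ^ m ∈ Wur p := by
    refine ⟨(Kur p).div_mem x.2.1 (pow_mem (natCast_mem_Wur (p := p) p).1 m), ?_⟩
    rw [norm_div, norm_p_pow, hm, div_self]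
    exact pow_ne_zero m (inv_pos.mpr (p_pos (p := p))).ne'
  have hun : ‖(x : Kbar p) / (p : Kbar p) ^ m‖ = 1 := by
    rw [norm_div, norm_p_pow, hm, div_self]
    exact pow_ne_zero m (inv_pos.mpr (p_pos (p := p))).ne'
  obtain ⟨u, hu'⟩ := (isUnit_Wur_iff (p := p) ⟨_, hu⟩).2 hun
  refine ⟨m, u, ?_, hm⟩
  apply Subtype.ext
  rw [hu']
  push_cast
  rw [mul_div_cancel₀ _ hpm]

theorem p_ne_zero_Wur : (p : Wur p) ≠ 0 := by
  intro h
  have := congrArg (fun y : Wur p => (y : Kbar p)) h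
  simp only [Subring.coe_natCast, ZeroMemClass.coe_zero] at this
  exact p_ne_zero' this

theorem not_isUnit_p : ¬ IsUnit (p : Wur p) := by
  rw [isUnit_Wur_iff]
  push_cast
  rw [LG83U.norm_p]
  have : (p : ℝ)⁻¹ < 1 := inv_lt_one_of_one_lt₀ (one_lt_p (p := p))
  exact this.ne

theorem inv_p_pow_injective : Function.Injective (fun m : ℕ => ((p : ℝ)⁻¹) ^ m) := by
  have h0 : (0 : ℝ) < (p : ℝ)⁻¹ := inv_pos.mpr (p_pos (p := p))
  have h1 : (p : ℝ)⁻¹ < 1 := inv_lt_one_of_one_lt₀ (one_lt_p (p := p))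
  exact (pow_right_strictAnti₀ h0 h1).injective

/-- `p` is irreducible in `W'`. -/
theorem irreducible_p : Irreducible (p : Wur p) := by
  rw [irreducible_iff]
  refine ⟨not_isUnit_p, fun a b hab => ?_⟩
  have ha0 : a ≠ 0 := by
    rintro rfl
    rw [zero_mul] at hab
    exact p_ne_zero_Wur hab
  have hb0 : b ≠ 0 := by
    rintro rfl
    rw [mul_zero] at hab
    exact p_ne_zero_Wur hab
  obtain ⟨i, u, -, hi⟩ := exists_pow_mul_unit ha0
  obtain ⟨j, v, -, hj⟩ := exists_pow_mul_unit hb0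
  have h1 := congrArg (fun y : Wur p => ‖(y : Kbar p)‖) hab
  simp only [Subring.coe_natCast, Subring.coe_mul, norm_mul] at h1
  rw [LG83U.norm_p, hi, hj, ← pow_add] at h1
  have h2 : ((p : ℝ)⁻¹) ^ 1 = ((p : ℝ)⁻¹) ^ (i + j) := by rw [pow_one]; exact h1
  have h3 : 1 = i + j := inv_p_pow_injective (p := p) h2
  have : i = 0 ∨ j = 0 := by omega
  rcases this with h | h
  · left
    rw [isUnit_Wur_iff, hi, h, pow_zero]
  · right
    rw [isUnit_Wur_iff, hj, h, pow_zero]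

variable (p)

/-- **`W'` is a discrete valuation ring.** -/
theorem isDiscreteValuationRing_Wur : IsDiscreteValuationRing (Wur p) := by
  apply IsDiscreteValuationRing.ofHasUnitMulPowIrreducibleFactorization
  refine ⟨(p : Wur p), irreducible_p, fun {x} hx => ?_⟩
  obtain ⟨m, u, hxu, -⟩ := exists_pow_mul_unit hx
  exact ⟨m, u, hxu.symm⟩

instance : IsDiscreteValuationRing (Wur p) := isDiscreteValuationRing_Wur p

/-- **`W'` is unramified: its maximal ideal is `(p)`.** -/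
theorem maximalIdeal_Wur : IsLocalRing.maximalIdeal (Wur p) = Ideal.span {(p : Wur p)} :=
  (IsDiscreteValuationRing.irreducible_iff_uniformizer _).1 irreducible_p

variable {p}

theorem mem_maximalIdeal_Wur_iff (x : Wur p) :
    x ∈ IsLocalRing.maximalIdeal (Wur p) ↔ ‖(x : Kbar p)‖ < 1 := by
  rw [IsLocalRing.mem_maximalIdeal, mem_nonunits_iff, isUnit_Wur_iff]
  exact ⟨fun h => lt_of_le_of_ne (norm_le_one_Wur x) h, fun h => h.ne⟩

/-- `x ∈ W'`, `‖x‖ < 1` ⇒ `x ∈ p W'` (the form of `CE46`'s "unramified subring"). -/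
theorem exists_eq_p_mul {x : Kbar p} (hx : x ∈ Wur p) (h : ‖x‖ < 1) :
    ∃ y ∈ Wur p, x = (p : Kbar p) * y := by
  have h1 : (⟨x, hx⟩ : Wur p) ∈ IsLocalRing.maximalIdeal (Wur p) :=
    (mem_maximalIdeal_Wur_iff _).2 h
  rw [maximalIdeal_Wur, Ideal.mem_span_singleton] at h1
  obtain ⟨y, hy⟩ := h1
  refine ⟨y, y.2, ?_⟩
  have := congrArg (fun z : Wur p => (z : Kbar p)) hy
  simpa using this

/-! ### `W'` inside `P = padicIntegers p` -/

theorem mem_padicIntegers_iff_norm {x : Kbar p} : x ∈ padicIntegers p ↔ ‖x‖ ≤ 1 := by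
  rw [mem_padicIntegers_iff]
  exact_mod_cast Iff.rfl

theorem Wur_le_padicIntegers {x : Kbar p} (hx : x ∈ Wur p) : x ∈ padicIntegers p :=
  mem_padicIntegers_iff_norm.2 hx.2

/-- `W' = P ∩ K'`. -/
theorem mem_Wur_iff_padicIntegers {x : Kbar p} :
    x ∈ Wur p ↔ x ∈ Kur p ∧ x ∈ padicIntegers p := by
  rw [mem_Wur_iff, mem_padicIntegers_iff_norm]

/-- `G_p` preserves `P`. -/
theorem gal_mem_padicIntegers_iff (g : Gp p) (x : Kbar p) :
    g x ∈ padicIntegers p ↔ x ∈ padicIntegers p := by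
  rw [mem_padicIntegers_iff_norm, mem_padicIntegers_iff_norm, norm_gal]

/-- **Inertia acts trivially on the residue field `P/𝔪_P`.** -/
theorem inertia_sub_lt_one {τ : Gp p} (hτ : τ ∈ Ip p) {x : Kbar p} (hx : ‖x‖ ≤ 1) :
    ‖τ x - x‖ < 1 :=
  (mem_Ip p).1 hτ x hx

/-- elements of `Ω` integral over `W'` are in `P`. -/
theorem norm_le_one_of_isIntegral_Wur {x : Kbar p} (hx : IsIntegral (Wur p) x) : ‖x‖ ≤ 1 :=
  Fermat.Agent.TW.CE46.Points.norm_le_one_of_isIntegral (R := Wur p) (Ω := Kbar p)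
    (fun r => norm_le_one_Wur r) hx

/-- `K' = W'[1/p]`. -/
theorem exists_pow_mul_mem_Wur {x : Kbar p} (hx : x ∈ Kur p) :
    ∃ m : ℕ, (p : Kbar p) ^ m * x ∈ Wur p := by
  rcases eq_or_ne x 0 with rfl | h0
  · exact ⟨0, by rw [mul_zero]; exact (Wur p).zero_mem⟩
  obtain ⟨n, hn⟩ := norm_eq_zpow_of_mem_Kur hx h0
  refine ⟨n.toNat, (Kur p).mul_mem (pow_mem (natCast_mem_Wur (p := p) p).1 _) hx, ?_⟩
  rw [norm_mul, norm_p_pow, hn, inv_pow, ← zpow_natCast]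
  rw [inv_mul_le_iff₀ (zpow_pos (p_pos (p := p)) _), mul_one]
  exact zpow_le_zpow_right₀ (one_lt_p (p := p)).le (Int.self_le_toNat n)

end Fermat.Agent.S33P.O2Unram95
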