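/-
Fermat/Agent/S33P/O2Unram95/Sigma0B.lean  (helper95, programme S33, brick A2'(e), the `b 0`-form)

The residual hypothesis `hres` of S33 in the form consumed by `Red63.quadModAt_IA` /
`Red63.quadratic_of_funOrders`: if `b0 ∉ 𝔪 V` is an eigenvector of `ρ(σ0)` (`σ0 ∈ I_p`) with eigenvalue `α`,
`α - 1` a unit, then

  `∀ σ ∈ I_p, ∀ v, ρ(σ) v - v ∈ (A ∙ b0) ⊔ 𝔪 • ⊤`.

Only `b0` has to be an eigenvector (no condition on a complement).
-/
import Mathlib
import Fermat.Agent.S33P.O2Unram95.Sigma0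

set_option autoImplicit false
set_option linter.unusedSectionVars false

noncomputable section

namespace Fermat.Agent.S33P.O2Unram95

open Fermat.Agent.TW.B5.Iface Fermat.Agent.T1.LocModel46
open Fermat.Agent.T1B.Plumb66.Inertia Fermat.Agent.T1B.Plumb66.Places
open scoped TensorProduct

local notation "Qbar" => AlgebraicClosure ℚ
local notation "Γ" => (AlgebraicClosure ℚ ≃ₐ[ℚ] AlgebraicClosure ℚ)

variable (p : ℕ) [hp : Fact p.Prime] {A : Type} [CommRing A] [IsLocalRing A] (ρ : GaloisRepAdic A)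

theorem red_smul (t : A) (v : ρ.V) : red ρ (t • v) = IsLocalRing.residue A t • red ρ v := by
  show ((1 : IsLocalRing.ResidueField A) ⊗ₜ[A] (t • v) : IsLocalRing.ResidueField A ⊗[A] ρ.V) =
    IsLocalRing.residue A t • ((1 : IsLocalRing.ResidueField A) ⊗ₜ[A] v)
  rw [TensorProduct.tmul_smul, TensorProduct.smul_tmul', TensorProduct.smul_tmul', Algebra.smul_def,
    IsLocalRing.ResidueField.algebraMap_eq, smul_eq_mul]

/-- coordinates of elements of `𝔪 V` lie in `𝔪`. -/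
theorem repr_mem_of_mem_smul_top {ι : Type*} {V : Type*} [AddCommGroup V] [Module A V]
    (b : Module.Basis ι A V) {w : V}
    (hw : w ∈ (IsLocalRing.maximalIdeal A • ⊤ : Submodule A V)) (i : ι) :
    b.repr w i ∈ IsLocalRing.maximalIdeal A := by
  refine Submodule.smul_induction_on hw (fun r hr m _ => ?_) (fun x y hx hy => ?_)
  · rw [map_smul, Finsupp.smul_apply, smul_eq_mul]
    exact Ideal.mul_mem_right _ _ hr
  · rw [map_add, Finsupp.add_apply]
    exact Ideal.add_mem _ hx hy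

/-- basis vectors are not in `𝔪 V`. -/
theorem basis_not_mem_smul_top {ι : Type*} {V : Type*} [AddCommGroup V] [Module A V]
    (b : Module.Basis ι A V) (i : ι) :
    b i ∉ (IsLocalRing.maximalIdeal A • ⊤ : Submodule A V) := by
  intro h
  have h1 := repr_mem_of_mem_smul_top b h i
  rw [Module.Basis.repr_self, Finsupp.single_eq_same] at h1
  exact (Ideal.ne_top_iff_one _).1 (IsLocalRing.maximalIdeal.isMaximal A).ne_top h1

/-- **A2'(e), `b0`-form.** -/
theorem sub_mem_span_sup (hres : (GaloisRepAdic.ofResidualGaloisRep ρ.residual).IsOrdinaryAt p)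
    {σ0 : Γ} (h0 : σ0 ∈ IA p) (b0 : ρ.V)
    (hb0 : b0 ∉ (IsLocalRing.maximalIdeal A • ⊤ : Submodule A ρ.V)) (α : A)
    (hα : ρ.ρ σ0 b0 = α • b0) (hα1 : IsUnit (α - 1)) {σ : Γ} (hσ : σ ∈ IA p) (v : ρ.V) :
    ρ.ρ σ v - v ∈ (A ∙ b0) ⊔ (IsLocalRing.maximalIdeal A • ⊤ : Submodule A ρ.V) := by
  obtain ⟨b, -, hb1⟩ := exists_residual_line p ρ hres
  -- `red b0` spans the residual line
  have hx0 : red ρ b0 ≠ 0 := fun h => hb0 ((red_eq_zero_iff ρ b0).1 h)
  have hα' : IsLocalRing.residue A α - 1 ≠ 0 := by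
    have := (hα1.map (IsLocalRing.residue A)).ne_zero
    rwa [map_sub, map_one] at this
  obtain ⟨c, hc⟩ := Submodule.mem_span_singleton.1 (hb1 σ0 h0 (red ρ b0))
  rw [residual_rho_red, hα, red_smul] at hc
  have hc' : (IsLocalRing.residue A α - 1) • red ρ b0 = c • b 0 := by
    rw [sub_smul, one_smul, hc]
  have hx : red ρ b0 = ((IsLocalRing.residue A α - 1)⁻¹ * c) • b 0 := by
    rw [mul_smul, ← hc', smul_smul, inv_mul_cancel₀ hα', one_smul]
  have hcne : (IsLocalRing.residue A α - 1)⁻¹ * c ≠ 0 := by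
    intro h
    rw [h, zero_smul] at hx
    exact hx0 hx
  -- the general element
  obtain ⟨d, hd⟩ := Submodule.mem_span_singleton.1 (hb1 σ hσ (red ρ v))
  obtain ⟨t, ht⟩ := IsLocalRing.residue_surjective (R := A)
    (d * ((IsLocalRing.residue A α - 1)⁻¹ * c)⁻¹)
  have hkey : red ρ (ρ.ρ σ v - v - t • b0) = 0 := by
    rw [map_sub, map_sub, ← residual_rho_red, ← hd, red_smul, ht, hx, smul_smul, mul_assoc,
      inv_mul_cancel₀ hcne, mul_one, sub_self]
  have hmem := (red_eq_zero_iff ρ _).1 hkey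
  have : ρ.ρ σ v - v = t • b0 + (ρ.ρ σ v - v - t • b0) := by abel
  rw [this]
  exact Submodule.add_mem _
    (Submodule.mem_sup_left (Submodule.smul_mem _ _ (Submodule.mem_span_singleton_self _)))
    (Submodule.mem_sup_right hmem)

/-- **A2'(e), basis form** (the `hres` of `Red63.quadModAt_IA`). -/
theorem sub_mem_span_sup_basis
    (hres : (GaloisRepAdic.ofResidualGaloisRep ρ.residual).IsOrdinaryAt p)
    {σ0 : Γ} (h0 : σ0 ∈ IA p) (b : Module.Basis (Fin 2) A ρ.V) (α : A)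
    (hα : ρ.ρ σ0 (b 0) = α • b 0) (hα1 : IsUnit (α - 1)) :
    ∀ σ ∈ IA p, ∀ v : ρ.V,
      ρ.ρ σ v - v ∈ (A ∙ b 0) ⊔ (IsLocalRing.maximalIdeal A • ⊤ : Submodule A ρ.V) :=
  fun _ hσ v => sub_mem_span_sup p ρ hres h0 (b 0) (basis_not_mem_smul_top b 0) α hα hα1 hσ v

end Fermat.Agent.S33P.O2Unram95
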