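/-
Fermat/Agent/S33P/O2Unram95/EpsCyclo.lean  (helper95, programme S33, brick A2': the `ε`-inputs)

For `ε = eps p hpT = padicToLocal p hpT ∘ cyclo p` (`Main68/Top.lean`):

* `eps_sub_natCast_mem` : if `g μ = μ ^ a` on `μ_{p^n}(ℚ̄)` then `ε g - a ∈ (p^n) T` (the `hε` of ruling R1);
* `detIsCyclotomic_of_det_eq_eps` : `det ρ = ε` ⇒ `ρ.DetIsCyclotomic p`;
* `detCycloModMax_of_det_eq_eps`  : `det ρ = ε` ⇒ `DetCycloModMax p ρ`;
* `exists_sigma0_eps` : A2'(d)+(e) for `ε = eps p hpT`, from `det ρ = ε` and `hres` alone;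
* `a2Data_of_det_eq_eps` : `Main68.A2Data H hpT` from `IsReduced T`, `det = ε` and `hres`.
-/
import Mathlib
import Fermat.Agent.S33P.O2Unram95.Sigma0B
import Fermat.Agent.S33P.Main68.Top

set_option autoImplicit false
set_option linter.unusedSectionVars false

noncomputable section

namespace Fermat.Agent.S33P.O2Unram95

open Fermat.Agent.T1B.Plumb66.Inertia Fermat.Agent.ES.J.CycloChar8 Fermat.Agent.S33P.Main68

local notation "Qbar" => AlgebraicClosure ℚ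
local notation "Γ" => (AlgebraicClosure ℚ ≃ₐ[ℚ] AlgebraicClosure ℚ)

variable (p : ℕ) [hp : Fact p.Prime] {T : Type} [CommRing T] [IsLocalRing T]
  [IsAdicComplete (IsLocalRing.maximalIdeal T) T]
  (hpT : (p : T) ∈ IsLocalRing.maximalIdeal T)

/-- **`hε`**: `ε g ≡ a mod p^n` when `g` acts on `μ_{p^n}` through `a`. -/
theorem eps_sub_natCast_mem (n : ℕ) (g : Γ) (a : ℕ)
    (h : ∀ μ : Qbar, μ ^ p ^ n = 1 → g μ = μ ^ a) :
    eps p hpT g - (a : T) ∈ Ideal.span {((p ^ n : ℕ) : T)} := by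
  obtain ⟨ζ, hζ⟩ := exists_primitiveRoot p n
  have h1 := toZModPow_cyclo p hζ (h ζ hζ.pow_eq_one)
  have h2 : ((cyclo p g : ℤ_[p]ˣ) : ℤ_[p]) - (a : ℤ_[p]) ∈ Ideal.span {(p : ℤ_[p]) ^ n} := by
    rw [← PadicInt.ker_toZModPow, RingHom.mem_ker, map_sub, h1, map_natCast, sub_self]
  obtain ⟨c, hc⟩ := Ideal.mem_span_singleton'.1 h2
  rw [Ideal.mem_span_singleton']
  refine ⟨Fermat.Agent.ES.J.PadicAlg8.padicToLocal p hpT c, ?_⟩
  have := congrArg (Fermat.Agent.ES.J.PadicAlg8.padicToLocal p hpT) hc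
  rw [map_mul, map_pow, map_natCast, map_sub, map_natCast] at this
  rw [Nat.cast_pow, this]
  rfl

variable (ρ : GaloisRepAdic T)

theorem detIsCyclotomic_of_det_eq_eps (hdet : ∀ g, LinearMap.det (ρ.ρ g) = eps p hpT g) :
    ρ.DetIsCyclotomic p :=
  ⟨hpT, fun n σ a h => by rw [hdet]; exact eps_sub_natCast_mem p hpT n σ a h⟩

theorem detCycloModMax_of_det_eq_eps (hdet : ∀ g, LinearMap.det (ρ.ρ g) = eps p hpT g) :
    DetCycloModMax p ρ :=
  detCycloModMax_of_detIsCyclotomic p ρ (detIsCyclotomic_of_det_eq_eps p hpT ρ hdet)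

/-- **A2'(d)+(e) for `ε = eps p hpT`.** -/
theorem exists_sigma0_eps (hp2 : p ≠ 2) (hdet : ∀ g, LinearMap.det (ρ.ρ g) = eps p hpT g)
    (hres : (GaloisRepAdic.ofResidualGaloisRep ρ.residual).IsOrdinaryAt p) :
    ∃ σ0 ∈ IA p, IsUnit (eps p hpT σ0 - 1) ∧
      LinearMap.trace T ρ.V (ρ.ρ σ0) - (eps p hpT σ0 + 1) ∈ IsLocalRing.maximalIdeal T ∧
      ∀ σ ∈ IA p, ∀ v : ρ.V, ∃ w : ρ.V, (ρ.ρ σ v - v) - (ρ.ρ σ0 w - w) ∈
        IsLocalRing.maximalIdeal T • (⊤ : Submodule T ρ.V) :=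
  exists_sigma0 p ρ hp2 hpT (eps p hpT) hdet (detCycloModMax_of_det_eq_eps p hpT ρ hdet) hres

end Fermat.Agent.S33P.O2Unram95

namespace Fermat.Agent.S33P.O2Unram95

open Fermat.Agent.T1B.Plumb66.Inertia Fermat.Agent.S33P.Main68

variable {p : ℕ} {N : ℕ} [NeZero N] {S : Finset ℕ}
  {𝒪 : Type} [CommRing 𝒪] [IsDomain 𝒪] [IsDiscreteValuationRing 𝒪]
  [IsAdicComplete (IsLocalRing.maximalIdeal 𝒪) 𝒪]
  {θ : CuspForm.heckeAlgebra N 2 (↑S : Set ℕ) →+* IsLocalRing.ResidueField 𝒪}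
  {T : Type} [CommRing T] [IsLocalRing T] [IsNoetherianRing T]
  [IsAdicComplete (IsLocalRing.maximalIdeal T) T] [Algebra 𝒪 T] [IsLocalHom (algebraMap 𝒪 T)]
  [Module.Finite 𝒪 T] [Module.Free 𝒪 T]

/-- **`A2Data`** (the A2' input of `Main68.s33_of_bricks`) from `IsReduced T`, `det = ε` and `hres`. -/
theorem a2Data_of_det_eq_eps [Fact p.Prime] (hp2 : p ≠ 2)
    (H : CuspForm.HeckeGaloisRepDatum N (↑S : Set ℕ) 𝒪 θ T)
    (hpT : (p : T) ∈ IsLocalRing.maximalIdeal T) (hred : IsReduced T)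
    (hdet : ∀ g, LinearMap.det (H.ρ.ρ g) = eps p hpT g)
    (hres : (GaloisRepAdic.ofResidualGaloisRep H.ρ.residual).IsOrdinaryAt p) :
    A2Data H hpT := by
  obtain ⟨σ0, h0, hu, htr, -⟩ := exists_sigma0_eps p hpT H.ρ hp2 hdet hres
  exact ⟨hred, hdet, σ0, h0, hu, htr⟩

end Fermat.Agent.S33P.O2Unram95
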